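import Fermat.Agent.S36.Mod3.Spec
import Fermat.Agent.S36.H253.EngNorm
import Fermat.Agent.S36.H83.BetaUniq
import Fermat.Agent.S37.H818.ModularNorm
import Fermat.Agent.A2.Mod.H751.Fricke
import Fermat.Agent.A2.Mod.H708.Vinf

/-!
# S36 / MOD3 — the leaves `LeafNV` and `LeafNR` from `LeafVal` and `LeafTable` (helper657)

`Mod3.LeafNV` (valuations of norms) and `Mod3.LeafNR` (residues of norms) are obtained from the
generic adapter `S36.H253.eng_norm_six` (helper253) by supplying its CONCRETE inputs at the levels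
`M q` and `M q q`:

* degrees: `[F : α F'] = [F : β F'] = q` (`S37.H818.finrankAlong_heckeAlphaBar'` for `α`; for `β`
  by transport along the Fricke involutions, `W ∘ α = β ∘ W'`);
* residue characteristic: `q ∈ 𝔪_{V₁}`, `q ∈ 𝔪_{V₃}`;
* witnesses of inseparability: `j ^ q ≡ β j` at `V₁ = V∞`, and `j` is not a `q`-th power modulo
  `𝔪_{V₁'}` (helper83: `h83_inW_j_pow_sub`, `h83_beta_indep`); the witness for `α` at `V₃` is the
  Fricke transform of the one for `β` at `V₁`.

The other inputs are fields of `PartVal` and `PartTable`, i.e. the leaves `LeafVal`, `LeafTable`.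

Main statements:
* `partNV_NR_of`  : `Std → Objs → PartVal → PartTable → PartNV ∧ PartNR` (concrete arguments);
* `leafNV_of`     : `LeafVal → LeafTable → LeafNV`;
* `leafNR_of`     : `LeafVal → LeafTable → LeafNR`.
-/

set_option autoImplicit false
set_option linter.style.haveILetI false
set_option linter.unusedSectionVars false
set_option synthInstance.maxHeartbeats 400000
set_option maxHeartbeats 1600000

noncomputable section

namespace Fermat.Agent.S36.Mod3.H657

open ModularCurve AlgebraicCurve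
open Fermat.Agent.A2.Mod
open Fermat.Agent.S36.Eng

/-! ## Abstract preliminaries -/

section Abstract

/-- Non-units of a valuation subring, elementwise. -/
theorem mem_nonunits_iff_inv {F : Type*} [Field F] (V : ValuationSubring F) (x : F) :
    x ∈ V.nonunits ↔ x = 0 ∨ x⁻¹ ∉ V := by
  rw [ValuationSubring.mem_nonunits_iff]
  by_cases hx : x = 0
  · subst hx
    simp
  · have hv : 0 < V.valuation x := by rw [Valuation.pos_iff]; exact hx
    rw [← V.valuation_le_one_iff, map_inv₀, not_le, one_lt_inv₀ hv]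
    simp [hx]

/-- Non-units of the pull-back of a valuation subring along a homomorphism of fields. -/
theorem mem_nonunits_comap {K L : Type*} [Field K] [Field L] (V : ValuationSubring L)
    (f : K →+* L) (x : K) : x ∈ (V.comap f).nonunits ↔ f x ∈ V.nonunits := by
  rw [mem_nonunits_iff_inv, mem_nonunits_iff_inv, ValuationSubring.mem_comap, map_inv₀,
    map_eq_zero]

/-- The degree along a degeneracy map is invariant under transport by automorphisms. -/
theorem finrankAlong_eq_of_equiv {K F F' : Type*} [Field K] [Field F] [Field F'] [Algebra K F]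
    [Algebra K F'] (φ ψ : F →ₐ[K] F') (i : F ≃+* F) (j : F' ≃+* F')
    (h : ∀ f, ψ (i f) = j (φ f)) : finrankAlong K φ = finrankAlong K ψ := by
  unfold finrankAlong
  exact @Algebra.finrank_eq_of_equiv_equiv F F' _ _ (algebraAlong φ) F F' _ _ (algebraAlong ψ)
    i j (RingHom.ext fun f => h f)

/-- Positive degree gives finiteness. -/
theorem finiteAlong_of_pos {K F F' : Type*} [Field K] [Field F] [Field F'] [Algebra K F]
    [Algebra K F'] (φ : F →ₐ[K] F') (h : 0 < finrankAlong K φ) : FiniteAlong K φ := by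
  unfold FiniteAlong
  unfold finrankAlong at h
  letI := algebraAlong φ
  exact Module.finite_of_finrank_pos h

/-- `f ∈ ϖ V` with `ϖ` a non-unit: `f` is a non-unit. -/
theorem mem_nonunits_of_mul_inv_mem {F : Type*} [Field F] (V : ValuationSubring F) {f ϖ : F}
    (hϖ : ϖ ∈ V.nonunits) (hϖ0 : ϖ ≠ 0) (h : f * ϖ⁻¹ ∈ V) : f ∈ V.nonunits := by
  rw [ValuationSubring.mem_nonunits_iff] at hϖ ⊢
  have h1 : V.valuation (f * ϖ⁻¹) ≤ 1 := (V.valuation_le_one_iff _).2 h
  have h2 : f = f * ϖ⁻¹ * ϖ := by rw [inv_mul_cancel_right₀ hϖ0]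
  rw [h2, map_mul]
  calc V.valuation (f * ϖ⁻¹) * V.valuation ϖ ≤ 1 * V.valuation ϖ := by gcongr
    _ = V.valuation ϖ := one_mul _
    _ < 1 := hϖ

end Abstract

/-! ## The concrete inputs -/

section Concrete

variable {P : ValuationSubring Qb} {E : IntermediateField ℚ Qb} {M q : ℕ}
  [NeZero M] [NeZero q] [NeZero (M * q)]

/-- `[F_{Mqq} : α F_{Mq}] = q`. -/
theorem deg_alpha (hq : q.Prime) : finrankAlong E (αE E (M * q) q) = q := by
  have h := Fermat.Agent.S37.H818.finrankAlong_heckeAlphaBar' (L := E) (M * q) q hq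
  rw [if_pos (dvd_mul_left q M)] at h
  exact h

/-- `[F_{Mqq} : β F_{Mq}] = q` (Fricke transport of `deg_alpha`). -/
theorem deg_beta (hq : q.Prime) {W' : FE E (M * q) ≃ₐ[E] FE E (M * q)}
    {W : FE E (M * q * q) ≃ₐ[E] FE E (M * q * q)}
    (hW' : IsFricke E (M * q) W') (hW : IsFricke E (M * q * q) W) :
    finrankAlong E (βE E (M * q) q) = q := by
  refine ((finrankAlong_eq_of_equiv (αE E (M * q) q) (βE E (M * q) q) W'.toRingEquiv
    W.toRingEquiv fun f => ?_).symm).trans (deg_alpha (E := E) (M := M) hq)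
  exact ((H751.frickeCompat E (M * q) q W' W hW' hW f).1).symm

/-- `j` (level `N`) is not congruent modulo `𝔪_{V∞}` to an element of `β (V∞)` (level `N' q = N`):
the residue of `j` does not lie in the image of the residue field of the lower level. -/
theorem j_not_congr_beta (hdvr : IsDiscreteValuationRing (RE P E)) {w : RE P E}
    (hw : Irreducible w) (hq : q.Prime)
    {VM : ValuationSubring (FE E M)} {V : ValuationSubring (FE E (M * q))}
    (hVM : IsVinf P E M VM) (hV : IsVinf P E (M * q) V) :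
    ∀ a : FE E M, a ∈ VM →
      jE E (M * q) 1 (one_dvd _) - βE E M q a ∉ V.nonunits := by
  classical
  intro a ha hmem
  have hN : M * q ≠ 0 := mul_ne_zero (NeZero.ne M) (NeZero.ne q)
  obtain ⟨hunif, -, -⟩ := H708.vinfBasic P E w (M * q) hN hdvr hw V hV
  obtain ⟨hunifM, -, -⟩ := H708.vinfBasic P E w M (NeZero.ne M) hdvr hw VM hVM
  -- the coefficients `(-a, 1, 0, …, 0)`
  let i0 : Fin q := ⟨0, hq.pos⟩
  let i1 : Fin q := ⟨1, hq.one_lt⟩
  have h01 : i0 ≠ i1 := by
    intro h
    have := congrArg Fin.val h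
    simp [i0, i1] at this
  let c : Fin q → FE E M := fun i => if i = i0 then -a else if i = i1 then 1 else 0
  have hc : ∀ i, c i ∈ VM := by
    intro i
    simp only [c]
    split_ifs
    · exact VM.neg_mem _ ha
    · exact VM.one_mem
    · exact VM.zero_mem
  have hsum : (∑ i : Fin q, βE E M q (c i) * jE E (M * q) 1 (one_dvd _) ^ (i : ℕ))
      = jE E (M * q) 1 (one_dvd _) - βE E M q a := by
    rw [Finset.sum_eq_add i0 i1 h01]
    · simp only [c, if_true, if_neg h01.symm, i0, i1]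
      rw [map_neg, map_one]
      ring
    · intro k _ hk
      simp only [c, if_neg hk.1, if_neg hk.2, map_zero, zero_mul]
    · intro h; exact absurd (Finset.mem_univ _) h
    · intro h; exact absurd (Finset.mem_univ _) h
  have hInW : InW P E (M * q) V w
      (∑ i : Fin q, βE E M q (c i) * jE E (M * q) 1 (one_dvd _) ^ (i : ℕ)) := by
    rw [hsum]
    unfold InW
    exact hunif.mul_inv_mem_iff.2 ((ValuationSubring.mem_nonunits_iff _).1 hmem)
  have h1 := Fermat.Agent.S36.H83.h83_beta_indep hdvr hw hVM hV c hc hInW i1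
  have hci1 : c i1 = 1 := by simp only [c, if_neg h01.symm, if_true]
  rw [hci1] at h1
  unfold InW at h1
  rw [one_mul] at h1
  exact hunifM.inv_not_mem h1

/-- `j ^ q ≡ β j` modulo `𝔪_{V∞}`. -/
theorem j_pow_sub_beta_mem (hdvr : IsDiscreteValuationRing (RE P E)) {w : RE P E}
    (hw : Irreducible w) (hq : q.Prime) (hP : P.LiesOverPrime q)
    {V : ValuationSubring (FE E (M * q))} (hV : IsVinf P E (M * q) V) :
    jE E (M * q) 1 (one_dvd _) ^ q - βE E M q (jE E M 1 (one_dvd _)) ∈ V.nonunits := by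
  have hN : M * q ≠ 0 := mul_ne_zero (NeZero.ne M) (NeZero.ne q)
  obtain ⟨hunif, -, -⟩ := H708.vinfBasic P E w (M * q) hN hdvr hw V hV
  rw [Fermat.Agent.S36.H83.h83_beta_jE]
  have h := Fermat.Agent.S36.H83.h83_inW_j_pow_sub hdvr hw hq hP hV
  unfold InW at h
  exact (ValuationSubring.mem_nonunits_iff _).2 (hunif.mul_inv_mem_iff.1 h)

end Concrete

/-! ## The leaves -/

section Leaves

variable {P : ValuationSubring Qb} {E : IntermediateField ℚ Qb} {M q : ℕ}
  [NeZero M] [NeZero q] [NeZero (M * q)]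

/-- **NV and NR at the concrete objects**, from `PartVal` and `PartTable`. -/
theorem partNV_NR_of {w : RE P E} (hS : Std P E M q w)
    {V₁' V₂' : ValuationSubring (FE E (M * q))}
    {V₁ V₂ V₃ : ValuationSubring (FE E (M * q * q))}
    {W' : FE E (M * q) ≃ₐ[E] FE E (M * q)}
    {W : FE E (M * q * q) ≃ₐ[E] FE E (M * q * q)}
    (hO : Objs P E M q V₁' V₂' V₁ V₂ V₃ W' W)
    (hVal : PartVal (R := RE P E) w q (x3E E M q) V₁ V₂ V₃)
    (hTab : PartTable (αE E (M * q) q) (βE E (M * q) q) V₁ V₂ V₃ V₁' V₂') :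
    PartNV (R := RE P E) w q (αE E (M * q) q) (βE E (M * q) q) V₁ V₂ V₃ V₁' V₂' ∧
      PartNR q (αE E (M * q) q) (βE E (M * q) q) V₁ V₂ V₃ V₁' V₂' := by
  have hq : q.Prime := hS.q_prime
  have hdvr : IsDiscreteValuationRing (RE P E) := hS.unram.1.dvr
  have hw : Irreducible w := hS.unif
  have hP : P.LiesOverPrime q := hS.lies_over
  have hN : M * q * q ≠ 0 := mul_ne_zero (NeZero.ne (M * q)) (NeZero.ne q)
  -- degrees
  have deg_α : finrankAlong E (αE E (M * q) q) = q := deg_alpha hq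
  have deg_β : finrankAlong E (βE E (M * q) q) = q := deg_beta hq hO.fricke' hO.fricke
  have fin_α : FiniteAlong E (αE E (M * q) q) :=
    finiteAlong_of_pos _ (by rw [deg_α]; exact hq.pos)
  have fin_β : FiniteAlong E (βE E (M * q) q) :=
    finiteAlong_of_pos _ (by rw [deg_β]; exact hq.pos)
  -- constants
  have hαw : αE E (M * q) q (algebraMap (RE P E) (FE E (M * q)) w)
      = algebraMap (RE P E) (FE E (M * q * q)) w :=
    Fermat.Agent.S36.H253.along_algebraMap _ w
  have hβw : βE E (M * q) q (algebraMap (RE P E) (FE E (M * q)) w)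
      = algebraMap (RE P E) (FE E (M * q * q)) w :=
    Fermat.Agent.S36.H253.along_algebraMap _ w
  -- residue characteristic
  have hq₁ : ((q : ℕ) : FE E (M * q * q)) ∈ V₁.nonunits :=
    Fermat.Agent.S36.H83.h83_vinf_liesOver hdvr hP hO.vinf
  have hq₃ : ((q : ℕ) : FE E (M * q * q)) ∈ V₃.nonunits := by
    rw [hO.vzero, mem_nonunits_comap, map_natCast]
    exact hq₁
  -- Fricke on the generators
  have hWj : W (jE E (M * q * q) (M * q * q) dvd_rfl) = jE E (M * q * q) 1 (one_dvd _) :=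
    hO.fricke.1 (M * q * q) 1 dvd_rfl (one_dvd _) (mul_one _)
  have hW'j : W' (jE E (M * q) (M * q) dvd_rfl) = jE E (M * q) 1 (one_dvd _) :=
    hO.fricke'.1 (M * q) 1 dvd_rfl (one_dvd _) (mul_one _)
  have hcompat : ∀ f : FE E (M * q), W (αE E (M * q) q f) = βE E (M * q) q (W' f) :=
    fun f => (H751.frickeCompat E (M * q) q W' W hO.fricke' hO.fricke f).1
  -- the witness for `β` at `V₁`
  obtain ⟨-, -, hj⟩ := H708.vinfBasic P E w (M * q * q) hN hdvr hw V₁ hO.vinf
  have hzβ : jE E (M * q * q) 1 (one_dvd _) ∈ V₁ := (hj 1 (one_dvd _)).1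
  have hzcβ : jE E (M * q * q) 1 (one_dvd _) ^ q
      - βE E (M * q) q (jE E (M * q) 1 (one_dvd _)) ∈ V₁.nonunits :=
    j_pow_sub_beta_mem hdvr hw hq hP hO.vinf
  have hnpβ : ∀ a : FE E (M * q), a ∈ V₁' →
      a ^ q - jE E (M * q) 1 (one_dvd _) ∉ V₁'.nonunits :=
    Fermat.Agent.S36.H253.hnp_of_not_congr q (βE E (M * q) q) hq hTab.comap_β₁ hq₁ hzβ hzcβ
      (j_not_congr_beta hdvr hw hq hO.vinf' hO.vinf)
  -- the witness for `α` at `V₃` (Fricke transform)
  have hzα : jE E (M * q * q) (M * q * q) dvd_rfl ∈ V₃ := by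
    rw [hO.vzero, ValuationSubring.mem_comap]
    show W _ ∈ V₁
    rw [hWj]
    exact hzβ
  have hzcα : jE E (M * q * q) (M * q * q) dvd_rfl ^ q
      - αE E (M * q) q (jE E (M * q) (M * q) dvd_rfl) ∈ V₃.nonunits := by
    rw [hO.vzero, mem_nonunits_comap]
    show W _ ∈ V₁.nonunits
    rw [map_sub, map_pow, hWj, hcompat, hW'j]
    exact hzcβ
  have hnpα : ∀ a : FE E (M * q), a ∈ V₂' →
      a ^ q - jE E (M * q) (M * q) dvd_rfl ∉ V₂'.nonunits := by
    intro a ha h
    rw [hO.vzero'] at ha h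
    rw [mem_nonunits_comap] at h
    have h' : W' (a ^ q - jE E (M * q) (M * q) dvd_rfl) ∈ V₁'.nonunits := h
    rw [map_sub, map_pow, hW'j] at h'
    exact hnpβ (W' a) ha h'
  obtain ⟨h1, h2, h3, h4, h5, h6⟩ :=
    Fermat.Agent.S36.H253.eng_norm_six (R := RE P E) w q hq
      (αE E (M * q) q) (βE E (M * q) q) fin_α fin_β deg_α deg_β hαw hβw
      hVal.dvr₁ hVal.dvr₃ hVal.ne₁₂ hVal.ne₂₃ hVal.unif₁ hVal.unif₃ hVal.ram₂
      hTab.comap_α₁ hTab.comap_α₂ hTab.comap_α₃ hTab.comap_β₁ hTab.comap_β₂ hTab.comap_β₃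
      hq₁ hq₃ hzα hzcα hnpα hzβ hzcβ hnpβ
  exact ⟨⟨h1, h2⟩, ⟨h3, h4, h5, h6⟩⟩

/-- **`LeafNV`** from `LeafVal` and `LeafTable`. -/
theorem leafNV_of (hVal : LeafVal) (hTab : LeafTable) : LeafNV :=
  fun P E M q _ _ _ w hS V₁' V₂' V₁ V₂ V₃ W' W hO =>
    (partNV_NR_of hS hO (hVal P E M q w hS V₁' V₂' V₁ V₂ V₃ W' W hO)
      (hTab P E M q w hS V₁' V₂' V₁ V₂ V₃ W' W hO)).1

/-- **`LeafNR`** from `LeafVal` and `LeafTable`. -/
theorem leafNR_of (hVal : LeafVal) (hTab : LeafTable) : LeafNR :=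
  fun P E M q _ _ _ w hS V₁' V₂' V₁ V₂ V₃ W' W hO =>
    (partNV_NR_of hS hO (hVal P E M q w hS V₁' V₂' V₁ V₂ V₃ W' W hO)
      (hTab P E M q w hS V₁' V₂' V₁ V₂ V₃ W' W hO)).2

end Leaves

end Fermat.Agent.S36.Mod3.H657

end
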